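import Mathlib

/-! # S41 / CSP : the arithmetic choices in step (INV) of report 385 -/

namespace Fermat.Agent.S41.CSP

/-- `Q = q^(2 φ(N²))`, a square, `≡ 1 mod N²`. -/
def QQ (N q : ℕ) : ℕ := q ^ (2 * Nat.totient (N ^ 2))

/-- Euler. -/
theorem QQ_dvd {N q : ℕ} (hqN : Nat.Coprime q N) : ((N : ℤ) ^ 2) ∣ (QQ N q : ℤ) - 1 := by
  have h1 : q ^ Nat.totient (N ^ 2) ≡ 1 [MOD N ^ 2] :=
    Nat.ModEq.pow_totient (Nat.Coprime.pow_right 2 hqN)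
  have h2 : QQ N q ≡ 1 [MOD N ^ 2] := by
    have h3 := h1.pow 2
    rwa [one_pow, ← pow_mul, mul_comm] at h3
  have h4 := (Nat.modEq_iff_dvd.1 h2.symm)
  exact_mod_cast h4

/-- `Q^((r-1)/2) = 1` in `F_r` (Fermat: `Q = (q^φ)²`). -/
theorem QQ_pow_half {N q r : ℕ} (hr : r.Prime) (hr2 : r ≠ 2) (hrq : ¬ r ∣ q) :
    ((QQ N q : ℕ) : ZMod r) ^ ((r - 1) / 2) = 1 := by
  have : Fact r.Prime := ⟨hr⟩
  have hq0 : (q : ZMod r) ≠ 0 := fun h => hrq ((ZMod.natCast_eq_zero_iff q r).1 h)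
  have hodd : Odd r := hr.eq_two_or_odd'.resolve_left hr2
  obtain ⟨t, ht⟩ := hodd
  have e1 : 2 * ((r - 1) / 2) = r - 1 := by omega
  rw [QQ, Nat.cast_pow, ← pow_mul]
  have e2 : 2 * Nat.totient (N ^ 2) * ((r - 1) / 2) = (r - 1) * Nat.totient (N ^ 2) := by
    calc 2 * Nat.totient (N ^ 2) * ((r - 1) / 2) = (2 * ((r - 1) / 2)) * Nat.totient (N ^ 2) := by
          ring
      _ = (r - 1) * Nat.totient (N ^ 2) := by rw [e1]
  rw [e2, pow_mul, ZMod.pow_card_sub_one_eq_one hq0, one_pow]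

/-- **The unit.**  `e := s1 - 1`, `m := (r-1)/2`, `gcd(e,m) = 1`: choose `j` with `e j ≡ i mod m`;
`J := φ(N²) e j`.  `q^(2J) = Q^(e j)`: `≡ 1 mod N²` (`QQ_dvd`), `≡ 1 mod s1` (Fermat, `q^e ≡ 1`), and `N²`, `s1` are coprime;
in `F_r`: `Q^(e j) = Q^i` by `QQ_pow_half`. -/
theorem exists_J {N q r s1 : ℕ} (hq : q.Prime) (hqN : Nat.Coprime q N) (hr : r.Prime) (hr2 : r ≠ 2)
    (hrq : r ≠ q) (hs1 : s1.Prime) (hs1q : s1 ≠ q) (hs1N : ¬ s1 ∣ N)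
    (hcop : Nat.Coprime (s1 - 1) ((r - 1) / 2)) (i : ℕ) :
    ∃ J : ℕ, ((N : ℤ) ^ 2 * s1) ∣ (q : ℤ) ^ (2 * J) - 1 ∧
      (((q : ℤ) ^ (2 * J) : ℤ) : ZMod r) = ((QQ N q : ℕ) : ZMod r) ^ i := by
  set e := s1 - 1 with he
  set m := (r - 1) / 2 with hm
  have he1 : 1 ≤ e := by have := hs1.two_le; omega
  have hm1 : 0 < m := by
    have := hr.two_le
    omega
  have hφ : 0 < Nat.totient m := Nat.totient_pos.2 hm1
  -- `e ^ φ(m) = 1 + m t`
  have h1 : e ^ Nat.totient m ≡ 1 [MOD m] := Nat.ModEq.pow_totient hcop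
  have h2 : 1 ≤ e ^ Nat.totient m := Nat.one_le_pow _ _ he1
  obtain ⟨t, ht⟩ := (Nat.modEq_iff_dvd' h2).1 h1.symm
  have h3 : e ^ Nat.totient m = 1 + m * t := by omega
  set j := i * e ^ (Nat.totient m - 1) with hj
  have hej : e * j = i + m * (t * i) := by
    have e1 : e * e ^ (Nat.totient m - 1) = e ^ Nat.totient m := by
      rw [← pow_succ', Nat.sub_add_cancel hφ]
    calc e * j = i * (e * e ^ (Nat.totient m - 1)) := by rw [hj]; ring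
      _ = i * (1 + m * t) := by rw [e1, h3]
      _ = i + m * (t * i) := by ring
  refine ⟨Nat.totient (N ^ 2) * (e * j), ?_, ?_⟩
  · have hQ : (q : ℤ) ^ (2 * (Nat.totient (N ^ 2) * (e * j))) = ((QQ N q : ℕ) : ℤ) ^ (e * j) := by
      rw [QQ, Nat.cast_pow, ← pow_mul, mul_assoc]
    have d1 : ((N : ℤ) ^ 2) ∣ (q : ℤ) ^ (2 * (Nat.totient (N ^ 2) * (e * j))) - 1 := by
      rw [hQ]
      have h4 := sub_dvd_pow_sub_pow ((QQ N q : ℕ) : ℤ) 1 (e * j)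
      rw [one_pow] at h4
      exact (QQ_dvd hqN).trans h4
    have d2 : (s1 : ℤ) ∣ (q : ℤ) ^ (2 * (Nat.totient (N ^ 2) * (e * j))) - 1 := by
      have hc : IsCoprime (q : ℤ) (s1 : ℤ) :=
        Nat.isCoprime_iff_coprime.2 ((Nat.coprime_primes hq hs1).2 (Ne.symm hs1q))
      have h4 := (Int.ModEq.pow_card_sub_one_eq_one hs1 hc).symm.dvd
      have e2 : (q : ℤ) ^ (2 * (Nat.totient (N ^ 2) * (e * j))) =
          ((q : ℤ) ^ (s1 - 1)) ^ (2 * Nat.totient (N ^ 2) * j) := by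
        rw [← pow_mul]
        congr 1
        rw [← he]
        ring
      rw [e2]
      have h5 := sub_dvd_pow_sub_pow ((q : ℤ) ^ (s1 - 1)) 1 (2 * Nat.totient (N ^ 2) * j)
      rw [one_pow] at h5
      exact h4.trans h5
    have hc2 : IsCoprime ((N : ℤ) ^ 2) (s1 : ℤ) := by
      have h6 : Nat.Coprime (N ^ 2) s1 :=
        Nat.Coprime.pow_left 2 ((Nat.Prime.coprime_iff_not_dvd hs1).2 hs1N).symm
      exact_mod_cast Nat.isCoprime_iff_coprime.2 h6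
    exact hc2.mul_dvd d1 d2
  · have hhalf := QQ_pow_half (N := N) hr hr2
      (fun h => hrq ((Nat.prime_dvd_prime_iff_eq hr hq).1 h))
    have hQ : (((q : ℤ) ^ (2 * (Nat.totient (N ^ 2) * (e * j))) : ℤ) : ZMod r) =
        ((QQ N q : ℕ) : ZMod r) ^ (e * j) := by
      rw [QQ, Nat.cast_pow, ← pow_mul, mul_assoc]
      push_cast
      rfl
    rw [hQ, hej, pow_add, pow_mul, hhalf, one_pow, mul_one]

end Fermat.Agent.S41.CSP
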