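import Fermat.Agent.S41.CSP.Sym

/-! # S41 / CSP : the function `f` on `F_r^*` attached to a symbol at modulus `c = N r` -/

namespace Fermat.Agent.S41.CSP

variable {k : Type*} [Field k] {N q : ℕ}

/-- CRT. -/
theorem exists_lift1 {r : ℕ} (h : Nat.Coprime N r) (t : ZMod r) :
    ∃ a : ℤ, (N : ℤ) ∣ a - 1 ∧ (a : ZMod r) = t := by
  obtain ⟨t', rfl⟩ := ZMod.intCast_surjective t
  obtain ⟨u, v, huv⟩ : IsCoprime (N : ℤ) (r : ℤ) := Nat.isCoprime_iff_coprime.2 h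
  refine ⟨1 + (t' - 1) * (u * N), ⟨(t' - 1) * u, by ring⟩, ?_⟩
  have h1 : ((u * N : ℤ) : ZMod r) = 1 := by
    have h2 : (u * N : ℤ) = 1 - v * r := by linarith
    rw [h2]
    push_cast
    simp
  rw [Int.cast_add, Int.cast_mul, h1]
  push_cast
  ring

/-- an integer `≡ 1 mod N` and `≡ t mod r`. -/
noncomputable def lift1 {r : ℕ} (h : Nat.Coprime N r) (t : ZMod r) : ℤ := (exists_lift1 h t).choose

theorem lift1_N {r : ℕ} (h : Nat.Coprime N r) (t : ZMod r) : (N : ℤ) ∣ lift1 h t - 1 :=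
  (exists_lift1 h t).choose_spec.1

theorem lift1_r {r : ℕ} (h : Nat.Coprime N r) (t : ZMod r) : ((lift1 h t : ℤ) : ZMod r) = t :=
  (exists_lift1 h t).choose_spec.2

/-- `f t = [N r; a]` for `a ≡ 1 mod N`, `a ≡ t mod r`. -/
noncomputable def SymAx.f (X : SymAx k N q) {r : ℕ} (h : Nat.Coprime N r) (t : (ZMod r)ˣ) : k :=
  X.S ((N : ℤ) * r) (lift1 h (t : ZMod r))

/-- an integer `≡ 1 mod N` which is a unit mod the prime `r` is prime to `N r`. -/
theorem isCoprime_of_lift {r : ℕ} (hr : r.Prime) {a : ℤ} (ha1 : (N : ℤ) ∣ a - 1)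
    (har : (a : ZMod r) ≠ 0) : IsCoprime a ((N : ℤ) * r) := by
  refine IsCoprime.mul_right ?_ ?_
  · obtain ⟨m, hm⟩ := ha1
    exact ⟨1, -m, by linarith⟩
  · refine ((Nat.prime_iff_prime_int.1 hr).coprime_iff_not_dvd.2 fun hd => har ?_).symm
    exact (ZMod.intCast_zmod_eq_zero_iff_dvd a r).2 hd

/-- PROOF: `a` and `lift1 h t` are congruent mod `N` and mod `r`, hence mod `N r` (`IsCoprime.mul_dvd`,
`ZMod.intCast_eq_intCast_iff_dvd_sub`); then `SymAx.congr` and `isCoprime_of_lift`. -/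
theorem SymAx.f_spec (X : SymAx k N q) {r : ℕ} (hr : r.Prime) (h : Nat.Coprime N r) {a : ℤ}
    (ha1 : (N : ℤ) ∣ a - 1) (t : (ZMod r)ˣ) (hat : (a : ZMod r) = t) :
    X.S ((N : ℤ) * r) a = X.f h t := by
  have _ : Fact r.Prime := ⟨hr⟩
  unfold SymAx.f
  have hl : IsCoprime (lift1 h (t : ZMod r)) ((N : ℤ) * r) :=
    isCoprime_of_lift hr (lift1_N h _) (by rw [lift1_r]; exact t.ne_zero)
  refine X.congr (Dvd.intro _ rfl) hl ?_
  refine IsCoprime.mul_dvd (Nat.isCoprime_iff_coprime.2 h) ?_ ?_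
  · have h1 := dvd_sub ha1 (lift1_N h (t : ZMod r))
    have h2 : a - 1 - (lift1 h (t : ZMod r) - 1) = a - lift1 h (t : ZMod r) := by ring
    rwa [h2] at h1
  · rw [← ZMod.intCast_eq_intCast_iff_dvd_sub, lift1_r, hat]

theorem SymAx.f_one (X : SymAx k N q) {r : ℕ} (hr : r.Prime) (h : Nat.Coprime N r) :
    X.f h (1 : (ZMod r)ˣ) = 0 := by
  rw [← X.f_spec hr h (a := 1) (by simp) 1 (by simp)]
  exact X.a3 _ (Dvd.intro _ rfl)

end Fermat.Agent.S41.CSP
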