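import Fermat.Agent.S41.CSP.Inv.Int
import Fermat.Agent.S41.CSP.Inv.Lift
import Fermat.Agent.S41.CSP.Pigeon.Defs

/-! # S41 / CSP : step (INV) of report 385, in terms of the function `f` on `F_r^*` -/

namespace Fermat.Agent.S41.CSP

variable {k : Type*} [Field k] {N q : ℕ}

/-- **(INV)** for `f`.  PROOF: `α := lift1 h t`; `inv_int` with `z`; (`Q^i z ≠ 1` because `ρ (z-1) = w z - 1` with `ρ` a unit, `z ≠ 1`);
identify by `f_spec`: `α' ↔ t ρ` (cancel `z - 1 ≠ 0`), `β ↔ t z⁻¹`, `β' ↔ t ρ z⁻¹`. -/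
theorem SymAx.inv_f (X : SymAx k N q) (hN : 0 < N) (hq : q.Prime) (hqN : Nat.Coprime q N) {r : ℕ}
    [Fact r.Prime] (hr4 : r % 4 = 3) (hrN : ¬ r ∣ N) (hrq : r ≠ q) (h : Nat.Coprime N r) (i : ℕ)
    (w : (ZMod r)ˣ) (hw : (w : ZMod r) = ((QQ N q : ℕ) : ZMod r) ^ i) (z ρ : (ZMod r)ˣ)
    (hM : Moeb w z ρ) (t : (ZMod r)ˣ) :
    X.f h (t * ρ) - X.f h (t * ρ * z⁻¹) = X.f h t - X.f h (t * z⁻¹) := by
  have hr : r.Prime := Fact.out
  obtain ⟨hz1, hρ⟩ := hM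
  have hz1' : (z : ZMod r) - 1 ≠ 0 := sub_ne_zero.2 hz1
  have hwz : ((QQ N q : ℕ) : ZMod r) ^ i * (z : ZMod r) ≠ 1 := by
    rw [← hw]
    intro h1
    rw [h1, sub_self] at hρ
    exact (mul_ne_zero ρ.ne_zero hz1') hρ
  obtain ⟨α', β, β', hα', hβ, hβ', e1, e2, e3, e4⟩ :=
    X.inv_int hN hq hqN hr hr4 hrN hrq i (lift1 h (t : ZMod r)) (lift1_N h _)
      (by rw [lift1_r]; exact t.ne_zero) (z : ZMod r) z.ne_zero hz1 hwz
  rw [lift1_r] at e1 e2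
  have hα't : (α' : ZMod r) = ((t * ρ : (ZMod r)ˣ) : ZMod r) := by
    rw [Units.val_mul]
    apply mul_right_cancel₀ hz1'
    rw [e1, ← hw, mul_assoc, hρ]
  have hβt : (β : ZMod r) = ((t * z⁻¹ : (ZMod r)ˣ) : ZMod r) := by
    rw [Units.val_mul]
    apply mul_right_cancel₀ z.ne_zero
    rw [e2, mul_assoc, Units.inv_mul, mul_one]
  have hβ't : (β' : ZMod r) = ((t * ρ * z⁻¹ : (ZMod r)ˣ) : ZMod r) := by
    rw [Units.val_mul]
    apply mul_right_cancel₀ z.ne_zero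
    rw [e3, mul_assoc, Units.inv_mul, mul_one, hα't]
  rw [X.f_spec hr h hα' _ hα't, X.f_spec hr h hβ _ hβt, X.f_spec hr h hβ' _ hβ't,
    X.f_spec hr h (lift1_N h _) t (lift1_r h _)] at e4
  exact e4

end Fermat.Agent.S41.CSP
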