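import Fermat.Agent.S41.CSP.Sym
import Fermat.Agent.S41.CSP.Inv.Arith
import Fermat.Agent.S41.CSP.Dir1

/-! # S41 / CSP : step (INV) of report 385, integer form -/

namespace Fermat.Agent.S41.CSP

variable {k : Type*} [Field k] {N q : ℕ}

/-- an integer `≡ 1 mod N` and nonzero mod the prime `r` is prime to `N r`. -/
theorem Int_isCoprime_of {N r : ℕ} (hr : r.Prime) {a : ℤ} (h1 : (N : ℤ) ∣ a - 1)
    (h2 : (a : ZMod r) ≠ 0) : IsCoprime a ((N : ℤ) * r) := by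
  have hN : IsCoprime a (N : ℤ) := by
    obtain ⟨t, ht⟩ := h1
    exact ⟨1, -t, by linarith⟩
  have hr' : IsCoprime a (r : ℤ) := by
    have hp : Prime (r : ℤ) := Nat.prime_iff_prime_int.mp hr
    refine (hp.coprime_iff_not_dvd.2 ?_).symm
    intro hd
    exact h2 ((ZMod.intCast_zmod_eq_zero_iff_dvd a r).2 hd)
  exact hN.mul_right hr'

/-- the purely formal part of (INV): all arithmetic data are given. -/
theorem SymAx.Int_core (X : SymAx k N q) {c s x U α α' β β' b : ℤ} (J : ℕ)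
    (hU : U = (q : ℤ) ^ (2 * J)) (hx : x = 1 + α * s) (hUx : 1 + α' * s = U * x)
    (hNc : (N : ℤ) ∣ c) (hαc : IsCoprime α c) (hα'c : IsCoprime α' c) (hβc : IsCoprime β c)
    (hβ'c : IsCoprime β' c) (hbc : IsCoprime b c) (hxc : IsCoprime x c)
    (hqc : IsCoprime (q : ℤ) c) (hqs : IsCoprime (q : ℤ) s)
    (hβ : c ∣ β * x - α) (hb : c ∣ b * (U * x) - α') (hUb : c ∣ U * b - β') :
    X.S c α' - X.S c β' = X.S c α - X.S c β := by
  have hxs : IsCoprime x s := ⟨1, -α, by rw [hx]; ring⟩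
  have e1 : X.S (c * s) x = X.S c α - X.S c β := by
    have := X.a5 α β c s hNc hαc hβc (by rw [← hx]; exact hβ)
    rwa [← hx] at this
  have e2 : X.S (c * s) (U * x) = X.S c α' - X.S c b := by
    have := X.a5 α' b c s hNc hα'c hbc (by rw [hUx]; exact hb)
    rwa [hUx] at this
  have e3 : X.S (c * s) (U * x) = X.S (c * s) x + J • X.τ := by
    rw [hU]
    exact X.a4_iter (hNc.mul_right s) (hxc.mul_right hxs) (hqc.mul_right hqs) J
  have e4 : X.S c (U * b) = X.S c b + J • X.τ := by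
    rw [hU]
    exact X.a4_iter hNc hbc hqc J
  have e5 : X.S c (U * b) = X.S c β' := X.congr hNc hβ'c hUb
  have e6 : X.S c b = X.S c β' - J • X.τ := by rw [← e5, e4]; ring
  rw [← e1]
  have : X.S c α' = X.S (c * s) x + J • X.τ + X.S c b := by rw [← e3, e2]; ring
  rw [this, e6]; ring

/-- **(INV), integer form.**  `c = N r`.
PROOF.  `σ := (z - 1) / (N α)` in `F_r` (nonzero).  `exists_s1` with `B = N * r * q`: prime `s1` (so `s1 ≠ q`, `s1 ∤ N`, `s1 ≠ r`),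
`(s1 : ZMod r) = σ`.  `exists_J`: `J`, `U := q^(2J)`, `N² s1 ∣ U - 1`, `U = Q^i` in `F_r`.
`s := N s1`, `x := 1 + α s` (`≡ 1 mod N`, `= z` in `F_r`), `e := (U - 1)/s` (`N ∣ e`), `α' := U α + e`, so `1 + α' s = U x`.
`α' ≡ α ≡ 1 mod N`; in `F_r`: `s α' = U x - 1 = Q^i z - 1`, `s α = z - 1`, which gives the 4th claim and `α' ≠ 0` in `F_r`.
`x` is prime to `c = N r`: choose `y` with `c ∣ x y - 1` and put `β := α y`, `β' := α' y`, `β'' := β' * y'` where `c ∣ U y' - 1`…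
more simply: `β'` with `c ∣ β' x - α'` and `b` with `c ∣ b (U x) - α'`; then `U b ≡ β' mod c`.
`a5` at `(α, β, c, s)`: `S (c s) x = S c α - S c β`.  `a5` at `(α', b, c, s)`: `S (c s) (U x) = S c α' - S c b`.
`a4_iter` at modulus `c s` : `S (c s) (U x) = S (c s) x + J • τ` (`x` prime to `c s`, `q` prime to `c s`).
`a4_iter` at modulus `c`: `S c (U b) = S c b + J • τ`, and `S c (U b) = S c β'` by `SymAx.congr`.  Combine. -/
theorem SymAx.inv_int (X : SymAx k N q) (hN : 0 < N) (hq : q.Prime) (hqN : Nat.Coprime q N) {r : ℕ}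
    (hr : r.Prime) (hr4 : r % 4 = 3) (hrN : ¬ r ∣ N) (hrq : r ≠ q) (i : ℕ)
    (α : ℤ) (hα1 : (N : ℤ) ∣ α - 1) (hαr : (α : ZMod r) ≠ 0) (z : ZMod r) (hz0 : z ≠ 0) (hz1 : z ≠ 1)
    (hwz : ((QQ N q : ℕ) : ZMod r) ^ i * z ≠ 1) :
    ∃ α' β β' : ℤ, (N : ℤ) ∣ α' - 1 ∧ (N : ℤ) ∣ β - 1 ∧ (N : ℤ) ∣ β' - 1 ∧
      (α' : ZMod r) * (z - 1) = α * (((QQ N q : ℕ) : ZMod r) ^ i * z - 1) ∧
      (β : ZMod r) * z = α ∧ (β' : ZMod r) * z = α' ∧
      X.S ((N : ℤ) * r) α' - X.S ((N : ℤ) * r) β' = X.S ((N : ℤ) * r) α - X.S ((N : ℤ) * r) β := by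
  have : Fact r.Prime := ⟨hr⟩
  have hNr : ((N : ℕ) : ZMod r) ≠ 0 := fun h => hrN ((ZMod.natCast_eq_zero_iff N r).1 h)
  obtain ⟨σ, hσdef⟩ : ∃ σ : ZMod r, σ = (z - 1) / ((N : ZMod r) * (α : ZMod r)) := ⟨_, rfl⟩
  have hσ : σ ≠ 0 := by
    rw [hσdef]; exact div_ne_zero (sub_ne_zero.2 hz1) (mul_ne_zero hNr hαr)
  obtain ⟨s1, hs1p, hs1B, hs1σ, hs1c⟩ := exists_s1 hr hr4 σ hσ (N * r * q)
  have hr2 : r ≠ 2 := by rintro rfl; omega
  have hNrpos : 0 < N * r := Nat.mul_pos hN hr.pos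
  have hs1q : s1 ≠ q := by
    have : q ≤ N * r * q := Nat.le_mul_of_pos_left q hNrpos
    omega
  have hNle : N ≤ N * r * q := by
    calc N ≤ N * r := Nat.le_mul_of_pos_right N hr.pos
      _ ≤ N * r * q := Nat.le_mul_of_pos_right _ hq.pos
  have hs1N : ¬ s1 ∣ N := fun h => by
    have := Nat.le_of_dvd hN h
    omega
  obtain ⟨J, ⟨w, hw⟩, hJ2⟩ := exists_J hq hqN hr hr2 hrq hs1p hs1q hs1N hs1c i
  obtain ⟨U, hU⟩ : ∃ U : ℤ, U = (q : ℤ) ^ (2 * J) := ⟨_, rfl⟩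
  rw [← hU] at hw hJ2
  obtain ⟨s, hs⟩ : ∃ s : ℤ, s = (N : ℤ) * s1 := ⟨_, rfl⟩
  obtain ⟨x, hx⟩ : ∃ x : ℤ, x = 1 + α * s := ⟨_, rfl⟩
  obtain ⟨c, hc⟩ : ∃ c : ℤ, c = (N : ℤ) * r := ⟨_, rfl⟩
  obtain ⟨α', hα'⟩ : ∃ α' : ℤ, α' = U * α + N * w := ⟨_, rfl⟩
  have hUx : 1 + α' * s = U * x := by
    rw [hα', hx, hs]; linear_combination (-1 : ℤ) * hw
  -- computations in `F_r`
  have hsr : (s : ZMod r) * α = z - 1 := by
    rw [hs]; push_cast; rw [hs1σ, hσdef]; field_simp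
  have hxr : (x : ZMod r) = z := by
    rw [hx]; push_cast; rw [mul_comm, hsr]; ring
  have hsα' : (s : ZMod r) * α' = ((QQ N q : ℕ) : ZMod r) ^ i * z - 1 := by
    have := congrArg (Int.cast : ℤ → ZMod r) hUx
    push_cast at this
    rw [hJ2, hxr] at this
    rw [← this]; ring
  have h4 : (α' : ZMod r) * (z - 1) = α * (((QQ N q : ℕ) : ZMod r) ^ i * z - 1) := by
    rw [← hsα', ← hsr]; ring
  have hα'r : (α' : ZMod r) ≠ 0 := by
    intro h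
    rw [h, mul_zero] at hsα'
    exact hwz (sub_eq_zero.1 hsα'.symm)
  -- divisibility by `N`
  have hNc : (N : ℤ) ∣ c := ⟨r, hc⟩
  have hrc : (r : ℤ) ∣ c := ⟨N, by rw [hc]; ring⟩
  have hα'1 : (N : ℤ) ∣ α' - 1 := by
    obtain ⟨t, ht⟩ := hα1
    refine ⟨N * s1 * w * α + t + w, ?_⟩
    rw [hα']; linear_combination α * hw + ht
  have hx1 : (N : ℤ) ∣ x - 1 := ⟨α * s1, by rw [hx, hs]; ring⟩
  -- coprimality
  have hαc : IsCoprime α c := hc ▸ Int_isCoprime_of hr hα1 hαr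
  have hα'c : IsCoprime α' c := hc ▸ Int_isCoprime_of hr hα'1 hα'r
  have hxc : IsCoprime x c := hc ▸ Int_isCoprime_of hr hx1 (by rw [hxr]; exact hz0)
  have hqN' : IsCoprime (q : ℤ) (N : ℤ) := Nat.isCoprime_iff_coprime.2 hqN
  have hqr : IsCoprime (q : ℤ) (r : ℤ) :=
    Nat.isCoprime_iff_coprime.2 ((Nat.coprime_primes hq hr).2 (Ne.symm hrq))
  have hqs1 : IsCoprime (q : ℤ) (s1 : ℤ) :=
    Nat.isCoprime_iff_coprime.2 ((Nat.coprime_primes hq hs1p).2 (Ne.symm hs1q))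
  have hqc : IsCoprime (q : ℤ) c := hc ▸ hqN'.mul_right hqr
  have hqs : IsCoprime (q : ℤ) s := hs ▸ hqN'.mul_right hqs1
  have hUc : IsCoprime U c := hU ▸ hqc.pow_left
  obtain ⟨y, v, hyv⟩ := hxc
  obtain ⟨y', v', hy'⟩ := hUc
  have hyc : IsCoprime y c := ⟨x, v, by linarith⟩
  have hy'c : IsCoprime y' c := ⟨U, v', by linarith⟩
  have hβ : c ∣ (α * y) * x - α := ⟨-(α * v), by linear_combination α * hyv⟩
  have hβ' : c ∣ (α' * y) * x - α' := ⟨-(α' * v), by linear_combination α' * hyv⟩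
  have hb : c ∣ (α' * y * y') * (U * x) - α' :=
    ⟨α' * (-v - v' + v * v' * c), by
      linear_combination (α' * (y' * U)) * hyv + (α' * (1 - v * c)) * hy'⟩
  have hUb : c ∣ U * (α' * y * y') - α' * y := ⟨-(α' * y * v'), by linear_combination (α' * y) * hy'⟩
  -- a general remark
  have key : ∀ a b' : ℤ, (N : ℤ) ∣ a - 1 → c ∣ b' * x - a →
      (N : ℤ) ∣ b' - 1 ∧ (b' : ZMod r) * z = a := by
    intro a b' ha hb'
    constructor
    · have : b' - 1 = (b' * x - a) + (a - 1) - b' * (x - 1) := by ring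
      rw [this]
      exact dvd_sub (dvd_add (hNc.trans hb') ha) (Dvd.dvd.mul_left hx1 b')
    · have h0 := (ZMod.intCast_zmod_eq_zero_iff_dvd (b' * x - a) r).2 (hrc.trans hb')
      push_cast at h0
      rw [hxr] at h0
      exact sub_eq_zero.1 h0
  refine ⟨α', α * y, α' * y, hα'1, (key α _ hα1 hβ).1, (key α' _ hα'1 hβ').1, h4,
    (key α _ hα1 hβ).2, (key α' _ hα'1 hβ').2, ?_⟩
  rw [← hc]
  exact X.Int_core J hU hx hUx hNc hαc hα'c (hαc.mul_left hyc) (hα'c.mul_left hyc)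
    ((hα'c.mul_left hyc).mul_left hy'c) ⟨y, v, hyv⟩ hqc hqs hβ hb hUb

end Fermat.Agent.S41.CSP
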